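import Fermat.Agent.S36.Mod3.H276.CuspVal
import Fermat.Agent.S36.Mod3.H189.ChartLeaf
import Fermat.Agent.S15.H386.ModShape

/-!
# S36 / MOD3, cell REG (R-I): the chart at infinity at the cusps (helper276)

Concrete objects of `Mod3/Spec.lean`: `j = j1`, `j_q = jq`, `j_{q²} = jqq`, `x = x3E = j j_q j_{q²}`
at level `M q q`; `Bi = chart R {x⁻¹}`.

* `tcusp = (j_{q²} - j) j_q / (j ^ q j_{q²})` — the local parameter of the middle component at its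
  cusps; `tcusp_mem_chart : tcusp ∈ Bi`;
* `zcusp = j_q / (j ^ (q - 1) j_{q²})`, `eab = j_q / j ^ q`, `eba = j / j_q ^ q`,
  `ebc = j_{q²} / j_q ^ q`, `ecb = j_q / j_{q²} ^ q` : all in `Bi`; `tcusp = eab - zcusp`;
* `inv_mem_of_cusp` : a closed point `𝔪` of `Bi` with `x⁻¹ ∈ 𝔪` contains `j⁻¹`, `j_q⁻¹`,
  `j_{q²}⁻¹`;
* `one_add_not_mem_of_cusp` : hence `1 + j⁻¹ c ∉ 𝔪` for every `c ∈ Bi`
  (`(1 - 1728 / j) ^ n ∉ 𝔪`, `H(j) / j ^ (q - 1) ∉ 𝔪` for `H` monic of degree `q - 1`).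

Only `q` prime is used (`S28.H807.nonempty_modPolyData`, `S15.H386.isModularShape_of_modPolyData`,
`S15.H962.val_root_of_isModularShape`).
-/

set_option autoImplicit false
set_option linter.style.haveILetI false
set_option linter.unusedSectionVars false
set_option synthInstance.maxHeartbeats 400000
set_option maxHeartbeats 1600000

noncomputable section

namespace Fermat.Agent.S36.Mod3.H276

open ModularCurve Polynomial
open Fermat.Agent.S18.H138 (chart mem_chart_of_mem)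
open Fermat.Agent
open Fermat.Agent.S15.H962 (IsModularShape eval2)

variable (P : ValuationSubring A2.Qb) (E : IntermediateField ℚ A2.Qb) (M q : ℕ)
  [NeZero M] [NeZero q] [NeZero (M * q)]

/-! ## The elements -/

/-- The local parameter of the middle component at its cusps. -/
def tcusp : A2.Mod.FE E (M * q * q) :=
  (jqq E M q - j1 E M q) * jq E M q * (j1 E M q ^ q * jqq E M q)⁻¹

/-- `j_q / (j ^ (q - 1) j_{q²})`. -/
def zcusp : A2.Mod.FE E (M * q * q) :=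
  jq E M q * (j1 E M q ^ (q - 1) * jqq E M q)⁻¹

/-- `j_q / j ^ q`. -/
def eab : A2.Mod.FE E (M * q * q) := jq E M q * (j1 E M q ^ q)⁻¹

/-- `j / j_q ^ q`. -/
def eba : A2.Mod.FE E (M * q * q) := j1 E M q * (jq E M q ^ q)⁻¹

/-- `j_{q²} / j_q ^ q`. -/
def ebc : A2.Mod.FE E (M * q * q) := jqq E M q * (jq E M q ^ q)⁻¹

/-- `j_q / j_{q²} ^ q`. -/
def ecb : A2.Mod.FE E (M * q * q) := jq E M q * (jqq E M q ^ q)⁻¹

theorem j1_ne_zero : j1 E M q ≠ 0 := A2.Mod.H873.jE_ne_zero E _ _ _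

theorem jq_ne_zero : jq E M q ≠ 0 := A2.Mod.H873.jE_ne_zero E _ _ _

theorem jqq_ne_zero : jqq E M q ≠ 0 :=
  haveI : NeZero (q * q) := ⟨Nat.mul_ne_zero (NeZero.ne q) (NeZero.ne q)⟩
  A2.Mod.H873.jE_ne_zero E _ _ _

theorem x3E_ne_zero : x3E E M q ≠ 0 :=
  mul_ne_zero (mul_ne_zero (j1_ne_zero E M q) (jq_ne_zero E M q)) (jqq_ne_zero E M q)

theorem tcusp_eq (hq : 0 < q) : tcusp E M q = eab E M q - zcusp E M q := by
  have h1 := j1_ne_zero E M q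
  have h3 := jqq_ne_zero E M q
  have hqq : j1 E M q ^ q = j1 E M q ^ (q - 1) * j1 E M q := by
    rw [← pow_succ]
    congr 1
    omega
  unfold tcusp eab zcusp
  rw [hqq]
  field_simp

/-! ## The modular equations in the `eval2` convention -/

section ModEq

variable (D : S28.ModPolyData q)

theorem eval2_j1_jq : eval2 D.Φ (j1 E M q) (jq E M q) = 0 :=
  (eval2_eq_aeval D.Φ _ _).trans (H189.modEq_jq_j E M q D)

theorem eval2_jq_j1 : eval2 D.Φ (jq E M q) (j1 E M q) = 0 :=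
  (eval2_eq_aeval D.Φ _ _).trans (H189.modEq_j_jq E M q D)

theorem eval2_jq_jqq : eval2 D.Φ (jq E M q) (jqq E M q) = 0 :=
  (eval2_eq_aeval D.Φ _ _).trans (H189.modEq_jqq_jq E M q D)

theorem eval2_jqq_jq : eval2 D.Φ (jqq E M q) (jq E M q) = 0 :=
  (eval2_eq_aeval D.Φ _ _).trans (H189.modEq_jq_jqq E M q D)

end ModEq

/-! ## Membership in the chart at infinity -/

section Mem

variable (hq : q.Prime)
include hq

/-- the inverses of `j`, `j_q`, `j_{q²}` lie in every valuation ring containing `x⁻¹` -/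
theorem inv_mem_of_inv_mem (V : ValuationSubring (A2.Mod.FE E (M * q * q)))
    (hV : (x3E E M q)⁻¹ ∈ V) :
    (j1 E M q)⁻¹ ∈ V ∧ (jq E M q)⁻¹ ∈ V ∧ (jqq E M q)⁻¹ ∈ V :=
  H189.inv_mem_of_x3_inv_mem E M q hq V hV

/-- **`tcusp ∈ Bi`.** -/
theorem tcusp_mem_chart :
    tcusp E M q ∈ chart (A2.RE P E) ({(x3E E M q)⁻¹} : Set (A2.Mod.FE E (M * q * q))) := by
  obtain ⟨D⟩ := S28.H807.nonempty_modPolyData q hq
  have hΦ := S15.H386.isModularShape_of_modPolyData D hq.one_lt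
  refine H189.mem_chart_of_forall_valuationSubring fun V hV => ?_
  obtain ⟨hu, -, hr⟩ := inv_mem_of_inv_mem E M q hq V hV
  exact tcusp_mem hq.two_le hΦ (eval2_j1_jq E M q D) (eval2_jq_jqq E M q D) V hu hr

/-- `j_q / j ^ q ∈ Bi`. -/
theorem eab_mem_chart :
    eab E M q ∈ chart (A2.RE P E) ({(x3E E M q)⁻¹} : Set (A2.Mod.FE E (M * q * q))) := by
  obtain ⟨D⟩ := S28.H807.nonempty_modPolyData q hq
  have hΦ := S15.H386.isModularShape_of_modPolyData D hq.one_lt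
  refine H189.mem_chart_of_forall_valuationSubring fun V hV => ?_
  obtain ⟨hu, -, -⟩ := inv_mem_of_inv_mem E M q hq V hV
  exact pair_mem hq.pos hΦ (eval2_j1_jq E M q D) V hu

/-- `j / j_q ^ q ∈ Bi`. -/
theorem eba_mem_chart :
    eba E M q ∈ chart (A2.RE P E) ({(x3E E M q)⁻¹} : Set (A2.Mod.FE E (M * q * q))) := by
  obtain ⟨D⟩ := S28.H807.nonempty_modPolyData q hq
  have hΦ := S15.H386.isModularShape_of_modPolyData D hq.one_lt
  refine H189.mem_chart_of_forall_valuationSubring fun V hV => ?_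
  obtain ⟨-, hs, -⟩ := inv_mem_of_inv_mem E M q hq V hV
  exact pair_mem' hq.pos hΦ (eval2_j1_jq E M q D) V hs

/-- `j_{q²} / j_q ^ q ∈ Bi`. -/
theorem ebc_mem_chart :
    ebc E M q ∈ chart (A2.RE P E) ({(x3E E M q)⁻¹} : Set (A2.Mod.FE E (M * q * q))) := by
  obtain ⟨D⟩ := S28.H807.nonempty_modPolyData q hq
  have hΦ := S15.H386.isModularShape_of_modPolyData D hq.one_lt
  refine H189.mem_chart_of_forall_valuationSubring fun V hV => ?_
  obtain ⟨-, hs, -⟩ := inv_mem_of_inv_mem E M q hq V hV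
  exact pair_mem hq.pos hΦ (eval2_jq_jqq E M q D) V hs

/-- `j_q / j_{q²} ^ q ∈ Bi`. -/
theorem ecb_mem_chart :
    ecb E M q ∈ chart (A2.RE P E) ({(x3E E M q)⁻¹} : Set (A2.Mod.FE E (M * q * q))) := by
  obtain ⟨D⟩ := S28.H807.nonempty_modPolyData q hq
  have hΦ := S15.H386.isModularShape_of_modPolyData D hq.one_lt
  refine H189.mem_chart_of_forall_valuationSubring fun V hV => ?_
  obtain ⟨-, -, hr⟩ := inv_mem_of_inv_mem E M q hq V hV
  exact pair_mem' hq.pos hΦ (eval2_jq_jqq E M q D) V hr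

/-- `j_q / (j ^ (q - 1) j_{q²}) ∈ Bi`. -/
theorem zcusp_mem_chart :
    zcusp E M q ∈ chart (A2.RE P E) ({(x3E E M q)⁻¹} : Set (A2.Mod.FE E (M * q * q))) := by
  have h1 : zcusp E M q = eab E M q - tcusp E M q := by
    rw [tcusp_eq E M q hq.pos]
    ring
  rw [h1]
  exact sub_mem (eab_mem_chart P E M q hq) (tcusp_mem_chart P E M q hq)

/-! ## The cusps -/

/-- **At a cusp `j⁻¹`, `j_q⁻¹`, `j_{q²}⁻¹` vanish.** -/
theorem inv_mem_of_cusp
    (𝔪 : Ideal (chart (A2.RE P E) ({(x3E E M q)⁻¹} : Set (A2.Mod.FE E (M * q * q)))))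
    (h𝔪 : 𝔪.IsMaximal)
    (hx : (⟨(x3E E M q)⁻¹, mem_chart_of_mem rfl⟩ :
      chart (A2.RE P E) ({(x3E E M q)⁻¹} : Set (A2.Mod.FE E (M * q * q)))) ∈ 𝔪) :
    (⟨(j1 E M q)⁻¹, H189.j1_inv_mem_chart P E M q hq⟩ :
        chart (A2.RE P E) ({(x3E E M q)⁻¹} : Set (A2.Mod.FE E (M * q * q)))) ∈ 𝔪 ∧
      (⟨(jq E M q)⁻¹, H189.jq_inv_mem_chart' P E M q hq⟩ :
        chart (A2.RE P E) ({(x3E E M q)⁻¹} : Set (A2.Mod.FE E (M * q * q)))) ∈ 𝔪 ∧
      (⟨(jqq E M q)⁻¹, H189.jqq_inv_mem_chart' P E M q hq⟩ :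
        chart (A2.RE P E) ({(x3E E M q)⁻¹} : Set (A2.Mod.FE E (M * q * q)))) ∈ 𝔪 := by
  obtain ⟨D⟩ := S28.H807.nonempty_modPolyData q hq
  have hΦ := S15.H386.isModularShape_of_modPolyData D hq.one_lt
  obtain ⟨V, -, hV⟩ := exists_dominating _ 𝔪 h𝔪
  have hxV : (j1 E M q * jq E M q * jqq E M q)⁻¹ ∈ V.nonunits := (hV _).mp hx
  obtain ⟨h1, h2, h3⟩ := inv_mem_nonunits_of_cusp hq.pos hΦ (eval2_j1_jq E M q D)
    (eval2_jq_jqq E M q D) (x3E_ne_zero E M q) V hxV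
  exact ⟨(hV _).mpr h1, (hV _).mpr h2, (hV _).mpr h3⟩

/-- **Units at the cusps**: `1 + j⁻¹ c ∉ 𝔪`. -/
theorem one_add_not_mem_of_cusp
    (𝔪 : Ideal (chart (A2.RE P E) ({(x3E E M q)⁻¹} : Set (A2.Mod.FE E (M * q * q)))))
    (h𝔪 : 𝔪.IsMaximal)
    (hx : (⟨(x3E E M q)⁻¹, mem_chart_of_mem rfl⟩ :
      chart (A2.RE P E) ({(x3E E M q)⁻¹} : Set (A2.Mod.FE E (M * q * q)))) ∈ 𝔪)
    (g c : chart (A2.RE P E) ({(x3E E M q)⁻¹} : Set (A2.Mod.FE E (M * q * q))))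
    (hg : (g : A2.Mod.FE E (M * q * q)) = 1 + (j1 E M q)⁻¹ * c) : g ∉ 𝔪 := by
  intro hgm
  have hu := (inv_mem_of_cusp P E M q hq 𝔪 h𝔪 hx).1
  have e : g = 1 + (⟨(j1 E M q)⁻¹, H189.j1_inv_mem_chart P E M q hq⟩ :
      chart (A2.RE P E) ({(x3E E M q)⁻¹} : Set (A2.Mod.FE E (M * q * q)))) * c :=
    Subtype.ext (by rw [hg]; rfl)
  have h1 : (1 : chart (A2.RE P E) ({(x3E E M q)⁻¹} : Set (A2.Mod.FE E (M * q * q)))) ∈ 𝔪 := by
    have : (1 : chart (A2.RE P E) ({(x3E E M q)⁻¹} : Set (A2.Mod.FE E (M * q * q)))) =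
        g - (⟨(j1 E M q)⁻¹, H189.j1_inv_mem_chart P E M q hq⟩ :
          chart (A2.RE P E) ({(x3E E M q)⁻¹} : Set (A2.Mod.FE E (M * q * q)))) * c := by
      rw [e]
      ring
    rw [this]
    exact 𝔪.sub_mem hgm (𝔪.mul_mem_right _ hu)
  exact h𝔪.ne_top ((Ideal.eq_top_iff_one _).mpr h1)

/-! ## `tcusp` is a uniformiser of the middle component -/

/-- `j`, `j_q`, `j_{q²}` are units of every valuation ring at which `x` is a unit. -/
theorem unitAt_of_x_unit (V : ValuationSubring (A2.Mod.FE E (M * q * q)))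
    (hxV : Eng.UnitAt V (x3E E M q)) :
    Eng.UnitAt V (j1 E M q) ∧ Eng.UnitAt V (jq E M q) ∧ Eng.UnitAt V (jqq E M q) := by
  obtain ⟨h1, h2, h3⟩ := H189.mem_of_x3_mem E M q hq V hxV.2.1
  obtain ⟨h1', h2', h3'⟩ := H189.inv_mem_of_x3_inv_mem E M q hq V hxV.2.2
  exact ⟨⟨j1_ne_zero E M q, h1, h1'⟩, ⟨jq_ne_zero E M q, h2, h2'⟩,
    ⟨jqq_ne_zero E M q, h3, h3'⟩⟩

/-- The unit `ε = j_q / (j ^ q j_{q²})` with `tcusp = (j_{q²} - j) ε`. -/
theorem tcusp_eq_mul : tcusp E M q =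
    (jqq E M q - j1 E M q) * (jq E M q * (j1 E M q ^ q * jqq E M q)⁻¹) := by
  unfold tcusp
  ring

theorem eps_unitAt (V : ValuationSubring (A2.Mod.FE E (M * q * q)))
    (hxV : Eng.UnitAt V (x3E E M q)) :
    Eng.UnitAt V (jq E M q * (j1 E M q ^ q * jqq E M q)⁻¹) := by
  obtain ⟨⟨a0, a1, a2⟩, ⟨b0, b1, b2⟩, ⟨c0, c1, c2⟩⟩ := unitAt_of_x_unit E M q hq V hxV
  refine ⟨mul_ne_zero b0 (inv_ne_zero (mul_ne_zero (pow_ne_zero q a0) c0)), ?_, ?_⟩
  · rw [mul_inv, ← inv_pow]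
    exact V.mul_mem _ _ b1 (V.mul_mem _ _ (V.pow_mem a2 q) c2)
  · rw [mul_inv, inv_inv]
    exact V.mul_mem _ _ b2 (V.mul_mem _ _ (V.pow_mem a1 q) c1)

end Mem

/-- A uniformiser times a unit is a uniformiser. -/
theorem unifAt_mul_unit {F : Type*} [Field F] {V : ValuationSubring F} {t ε : F}
    (ht : Eng.UnifAt V t) (hε : Eng.UnitAt V ε) : Eng.UnifAt V (t * ε) := by
  obtain ⟨t0, t1, t2⟩ := ht
  obtain ⟨e0, e1, e2⟩ := hε
  refine ⟨mul_ne_zero t0 e0, ?_, fun f hf => ?_⟩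
  · rw [V.mem_nonunits_iff] at t1 ⊢
    rw [map_mul]
    have h1 : V.valuation ε ≤ 1 := (V.valuation_le_one_iff _).mpr e1
    calc V.valuation t * V.valuation ε ≤ V.valuation t * 1 := by gcongr
      _ = V.valuation t := mul_one _
      _ < 1 := t1
  · have e : f * (t * ε)⁻¹ = f * t⁻¹ * ε⁻¹ := by
      rw [mul_inv, mul_assoc]
    rw [e]
    exact V.mul_mem _ _ (t2 f hf) e2

/-- **`tcusp` is a uniformiser of the middle component** (from `PartVal.x_unit₂` and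
`PartVT.pi_unif`). -/
theorem tcusp_unifAt (hq : q.Prime) (V₂ : ValuationSubring (A2.Mod.FE E (M * q * q)))
    (hxV : Eng.UnitAt V₂ (x3E E M q)) (hπ : Eng.UnifAt V₂ (jqq E M q - j1 E M q)) :
    Eng.UnifAt V₂ (tcusp E M q) := by
  rw [tcusp_eq_mul E M q hq]
  exact unifAt_mul_unit hπ (eps_unitAt E M q hq V₂ hxV)

end Fermat.Agent.S36.Mod3.H276

end
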