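import Fermat.Agent.S15.H962.NewtonVal
import Fermat.Agent.S36.Mod3.H189.Chart3Abs

/-!
# S36 / MOD3, cell REG (R-I) and INC (`cusp_single`): valuations at the cusps (helper276)

Abstract part (Mathlib + `S15.H962.NewtonVal`).  `Φ ∈ ℤ[X][Y]` of modular shape of level `q ≥ 2`
(`S15.H962.IsModularShape`), `a, b, c` in a field `K` with `Φ(a, b) = 0 = Φ(b, c)` (think of
`a = j`, `b = j_q`, `c = j_{q²}`), `v` a valuation of `K` with `1 < v a` (a "cusp").  The Newton
polygon (`S15.H962.val_root_of_isModularShape`) leaves the four patterns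

    (v a, v b, v c) = (A, A^q, A^{q²}), (A, A^q, A), (B^q, B, B^q), (C^{q²}, C^q, C)

and in all of them

* `val_pair`    : `1 < v b`, `v b ≤ v a ^ q`, `v a ≤ v b ^ q`;
* `val_triple`  : `v b ≤ v a ^ (q - 1) * v c`;
* `tcusp_mem`   : `(c - a) * b * (a ^ q * c)⁻¹ ∈ V` for every valuation subring `V` with
                  `a⁻¹ ∈ V` (the local parameter of the middle component at its cusps).
-/

set_option autoImplicit false

namespace Fermat.Agent.S36.Mod3.H276

open Polynomial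
open Fermat.Agent.S15.H962 (IsModularShape eval2 val_root_of_isModularShape)

section Val

variable {K : Type*} [Field K] {Γ₀ : Type*} [LinearOrderedCommGroupWithZero Γ₀]
  (v : Valuation K Γ₀)

/-- The two bounds which hold in both Newton patterns. -/
theorem val_pair {q : ℕ} (hq : 0 < q) {Φ : ℤ[X][X]} (hΦ : IsModularShape q Φ) {a b : K}
    (ha : 1 < v a) (h : eval2 Φ a b = 0) :
    1 < v b ∧ v b ≤ v a ^ q ∧ v a ≤ v b ^ q := by
  have hq0 : q ≠ 0 := hq.ne'
  rcases val_root_of_isModularShape v hq hΦ ha h with h1 | h1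
  · refine ⟨?_, h1.le, ?_⟩
    · rw [h1]
      exact one_lt_pow₀ ha hq0
    · rw [h1, ← pow_mul]
      exact le_self_pow₀ ha.le (Nat.mul_ne_zero hq0 hq0)
  · have hb : 1 < v b := by
      by_contra hcon
      rw [not_lt] at hcon
      have : v b ^ q ≤ 1 := pow_le_one₀ zero_le hcon
      rw [h1] at this
      exact absurd ha (not_lt.mpr this)
    refine ⟨hb, ?_, h1.ge⟩
    calc v b ≤ v b ^ q := le_self_pow₀ hb.le hq0
      _ = v a := h1
      _ ≤ v a ^ q := le_self_pow₀ ha.le hq0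

/-- The bound along the chain `a — b — c`. -/
theorem val_triple {q : ℕ} (hq : 2 ≤ q) {Φ : ℤ[X][X]} (hΦ : IsModularShape q Φ) {a b c : K}
    (ha : 1 < v a) (hab : eval2 Φ a b = 0) (hbc : eval2 Φ b c = 0) :
    v b ≤ v a ^ (q - 1) * v c := by
  have hq0 : 0 < q := by omega
  have hq0' : q ≠ 0 := hq0.ne'
  obtain ⟨hb, -, -⟩ := val_pair v hq0 hΦ ha hab
  obtain ⟨hc, -, -⟩ := val_pair v hq0 hΦ hb hbc
  have hA1 : 1 ≤ v a ^ (q - 1) := one_le_pow₀ ha.le
  rcases val_root_of_isModularShape v hq0 hΦ hb hbc with h2 | h2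
  · -- `v c = v b ^ q`
    calc v b ≤ v b ^ q := le_self_pow₀ hb.le hq0'
      _ = v c := h2.symm
      _ = 1 * v c := (one_mul _).symm
      _ ≤ v a ^ (q - 1) * v c := by gcongr
  · rcases val_root_of_isModularShape v hq0 hΦ ha hab with h1 | h1
    · -- `v b = v a ^ q`, `v c ^ q = v b`: `v c = v a`
      have hca : v c = v a := by
        have h3 : v c ^ q = v a ^ q := by rw [h2, h1]
        rcases lt_trichotomy (v c) (v a) with hlt | heq | hgt
        · exact absurd h3 (pow_lt_pow_left₀ hlt zero_le hq0').ne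
        · exact heq
        · exact absurd h3 (pow_lt_pow_left₀ hgt zero_le hq0').ne'
      rw [hca, h1]
      have : v a ^ (q - 1) * v a = v a ^ q := by
        rw [← pow_succ]
        congr 1
        omega
      rw [this]
    · -- `v b ^ q = v a`, `v c ^ q = v b`
      calc v b ≤ v b ^ q := le_self_pow₀ hb.le hq0'
        _ = v a := h1
        _ ≤ v a ^ (q - 1) := le_self_pow₀ ha.le (by omega)
        _ = v a ^ (q - 1) * 1 := (mul_one _).symm
        _ ≤ v a ^ (q - 1) * v c := by gcongr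

end Val

/-! ## Valuation subrings -/

section ValSub

variable {K : Type*} [Field K]

/-- The two evaluation conventions agree. -/
theorem eval2_eq_aeval (Φ : ℤ[X][X]) (a b : K) :
    eval2 Φ a b = Φ.eval₂ (Polynomial.aeval (R := ℤ) a).toRingHom b := by
  have e : Polynomial.eval₂RingHom (Int.castRingHom K) a =
      (Polynomial.aeval (R := ℤ) a).toRingHom := by
    apply Polynomial.ringHom_ext
    · intro n
      simp
    · simp
  unfold eval2
  rw [e]

/-- `Φ(a, b) = 0`, `Φ` monic in the outer variable, `a ∈ V` ⟹ `b ∈ V`. -/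
theorem mem_of_eval2 {Φ : ℤ[X][X]} (hΦ : Φ.Monic) {a b : K} (h : eval2 Φ a b = 0)
    (V : ValuationSubring K) (ha : a ∈ V) : b ∈ V :=
  H189.mem_valuationSubring_of_monic Φ hΦ (by rw [← eval2_eq_aeval]; exact h) V ha

theorem one_lt_val_iff (V : ValuationSubring K) {a : K} : 1 < V.valuation a ↔ a ∉ V := by
  rw [← V.valuation_le_one_iff, not_le]

/-- `v x ≤ v y`, `y ≠ 0` ⟹ `x / y ∈ V`. -/
theorem mul_inv_mem_of_val_le (V : ValuationSubring K) {x y : K} (hy : y ≠ 0)
    (h : V.valuation x ≤ V.valuation y) : x * y⁻¹ ∈ V := by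
  rw [← V.valuation_le_one_iff, map_mul, map_inv₀]
  have hy0 : V.valuation y ≠ 0 := (Valuation.ne_zero_iff _).mpr hy
  calc V.valuation x * (V.valuation y)⁻¹ ≤ V.valuation y * (V.valuation y)⁻¹ := by gcongr
    _ = 1 := mul_inv_cancel₀ hy0

/-- `v x < v y` ⟹ `x / y ∈ 𝔪_V`. -/
theorem mul_inv_mem_nonunits_of_val_lt (V : ValuationSubring K) {x y : K}
    (h : V.valuation x < V.valuation y) : x * y⁻¹ ∈ V.nonunits := by
  have hy0 : V.valuation y ≠ 0 := fun h0 => by
    rw [h0] at h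
    exact not_lt_zero h
  rw [V.mem_nonunits_iff, map_mul, map_inv₀]
  have hpos : 0 < (V.valuation y)⁻¹ := by
    rw [zero_lt_iff]
    exact inv_ne_zero hy0
  calc V.valuation x * (V.valuation y)⁻¹ < V.valuation y * (V.valuation y)⁻¹ :=
        mul_lt_mul_of_pos_right h hpos
    _ = 1 := mul_inv_cancel₀ hy0

theorem ne_zero_of_not_mem (V : ValuationSubring K) {a : K} (ha : a ∉ V) : a ≠ 0 :=
  fun h => ha (h ▸ V.zero_mem)

variable {q : ℕ} {Φ : ℤ[X][X]}

/-- `b / a ^ q ∈ V` as soon as `a⁻¹, b⁻¹ ∈ V`  (`j_q / j ^ q` lies in the chart at infinity). -/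
theorem pair_mem (hq : 0 < q) (hΦ : IsModularShape q Φ) {a b : K}
    (hab : eval2 Φ a b = 0) (V : ValuationSubring K) (hu : a⁻¹ ∈ V) :
    b * (a ^ q)⁻¹ ∈ V := by
  by_cases ha : a ∈ V
  · have hb : b ∈ V := mem_of_eval2 hΦ.monic hab V ha
    rw [← inv_pow]
    exact V.mul_mem _ _ hb (V.pow_mem hu q)
  · have ha0 := ne_zero_of_not_mem V ha
    have ha1 := (one_lt_val_iff V).mpr ha
    obtain ⟨-, h2, -⟩ := val_pair V.valuation hq hΦ ha1 hab
    refine mul_inv_mem_of_val_le V (pow_ne_zero q ha0) ?_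
    rw [map_pow]
    exact h2

/-- `a / b ^ q ∈ V` as soon as `a⁻¹, b⁻¹ ∈ V`  (`j / j_q ^ q` lies in the chart at infinity). -/
theorem pair_mem' (hq : 0 < q) (hΦ : IsModularShape q Φ) {a b : K}
    (hab : eval2 Φ a b = 0) (V : ValuationSubring K) (hs : b⁻¹ ∈ V) :
    a * (b ^ q)⁻¹ ∈ V := by
  by_cases ha : a ∈ V
  · rw [← inv_pow]
    exact V.mul_mem _ _ ha (V.pow_mem hs q)
  · have ha1 := (one_lt_val_iff V).mpr ha
    obtain ⟨hb1, -, h3⟩ := val_pair V.valuation hq hΦ ha1 hab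
    have hb0 : b ≠ 0 := ne_zero_of_not_mem V ((one_lt_val_iff V).mp hb1)
    refine mul_inv_mem_of_val_le V (pow_ne_zero q hb0) ?_
    rw [map_pow]
    exact h3

/-- **The local parameter at the cusps of the middle component lies in the chart at infinity.** -/
theorem tcusp_mem (hq : 2 ≤ q) (hΦ : IsModularShape q Φ) {a b c : K}
    (hab : eval2 Φ a b = 0) (hbc : eval2 Φ b c = 0) (V : ValuationSubring K)
    (hu : a⁻¹ ∈ V) (hr : c⁻¹ ∈ V) :
    (c - a) * b * (a ^ q * c)⁻¹ ∈ V := by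
  have hq0 : 0 < q := by omega
  by_cases ha : a ∈ V
  · have hb : b ∈ V := mem_of_eval2 hΦ.monic hab V ha
    have hc : c ∈ V := mem_of_eval2 hΦ.monic hbc V hb
    rw [mul_inv, ← inv_pow]
    exact V.mul_mem _ _ (V.mul_mem _ _ (sub_mem hc ha) hb)
      (V.mul_mem _ _ (V.pow_mem hu q) hr)
  · have ha0 := ne_zero_of_not_mem V ha
    have ha1 := (one_lt_val_iff V).mpr ha
    obtain ⟨hb1, h2, -⟩ := val_pair V.valuation hq0 hΦ ha1 hab
    obtain ⟨hc1, -, -⟩ := val_pair V.valuation hq0 hΦ hb1 hbc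
    have hc0 : c ≠ 0 := ne_zero_of_not_mem V ((one_lt_val_iff V).mp hc1)
    have h3 := val_triple V.valuation hq hΦ ha1 hab hbc
    have e : (c - a) * b * (a ^ q * c)⁻¹ = b * (a ^ q)⁻¹ - b * (a ^ (q - 1) * c)⁻¹ := by
      have hqq : a ^ q = a ^ (q - 1) * a := by
        rw [← pow_succ]
        congr 1
        omega
      rw [hqq]
      field_simp
    rw [e]
    refine sub_mem ?_ ?_
    · refine mul_inv_mem_of_val_le V (pow_ne_zero q ha0) ?_
      rw [map_pow]
      exact h2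
    · refine mul_inv_mem_of_val_le V (mul_ne_zero (pow_ne_zero _ ha0) hc0) ?_
      rw [map_mul, map_pow]
      exact h3

/-- At a cusp (`(a b c)⁻¹ ∈ 𝔪_V`) the three inverses are non-units. -/
theorem inv_mem_nonunits_of_cusp (hq : 0 < q) (hΦ : IsModularShape q Φ) {a b c : K}
    (hab : eval2 Φ a b = 0) (hbc : eval2 Φ b c = 0) (habc : a * b * c ≠ 0)
    (V : ValuationSubring K) (hx : (a * b * c)⁻¹ ∈ V.nonunits) :
    a⁻¹ ∈ V.nonunits ∧ b⁻¹ ∈ V.nonunits ∧ c⁻¹ ∈ V.nonunits := by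
  have ha : a ∉ V := by
    intro ha
    have hb : b ∈ V := mem_of_eval2 hΦ.monic hab V ha
    have hc : c ∈ V := mem_of_eval2 hΦ.monic hbc V hb
    have h1 : V.valuation (a * b * c) ≤ 1 :=
      (V.valuation_le_one_iff _).mpr (V.mul_mem _ _ (V.mul_mem _ _ ha hb) hc)
    rw [V.mem_nonunits_iff, map_inv₀] at hx
    have h0 : V.valuation (a * b * c) ≠ 0 := (Valuation.ne_zero_iff _).mpr habc
    have h2 : 1 ≤ (V.valuation (a * b * c))⁻¹ := (one_le_inv₀ (zero_lt_iff.mpr h0)).mpr h1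
    exact absurd hx (not_lt.mpr h2)
  have ha1 := (one_lt_val_iff V).mpr ha
  obtain ⟨hb1, -, -⟩ := val_pair V.valuation hq hΦ ha1 hab
  obtain ⟨hc1, -, -⟩ := val_pair V.valuation hq hΦ hb1 hbc
  have key : ∀ {y : K}, 1 < V.valuation y → y⁻¹ ∈ V.nonunits := by
    intro y hy
    rw [V.mem_nonunits_iff, map_inv₀]
    exact inv_lt_one_of_one_lt₀ hy
  exact ⟨key ha1, key hb1, key hc1⟩

end ValSub

/-! ## A valuation ring dominating a closed point -/

section Dominate

variable {R : Type*} [CommRing R] {K : Type*} [Field K] [Algebra R K]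

/-- Every closed point `𝔪` of a subalgebra `B` of a field is dominated by a valuation ring:
`B ⊆ V` and `𝔪 = B ∩ 𝔪_V`. -/
theorem exists_dominating (B : Subalgebra R K) (𝔪 : Ideal B) (h𝔪 : 𝔪.IsMaximal) :
    ∃ V : ValuationSubring K, (∀ b : B, (b : K) ∈ V) ∧
      ∀ b : B, b ∈ 𝔪 ↔ (b : K) ∈ V.nonunits := by
  classical
  let A : Subring K := B.toSubring
  let φ : A →+* B := (A.subtype).codRestrict B (fun x => x.2)
  have hI : 𝔪.comap φ ≠ ⊤ := by
    intro h
    have h1 : (1 : A) ∈ 𝔪.comap φ := by rw [h]; trivial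
    rw [Ideal.mem_comap, map_one] at h1
    exact h𝔪.ne_top ((Ideal.eq_top_iff_one _).mpr h1)
  obtain ⟨V, hAV, hsub⟩ := Ideal.image_subset_nonunits_valuationSubring (𝔪.comap φ) hI
  have hBV : ∀ b : B, (b : K) ∈ V := fun b => hAV b.2
  have hfwd : ∀ b : B, b ∈ 𝔪 → (b : K) ∈ V.nonunits := by
    intro b hb
    apply hsub
    refine ⟨⟨b.1, b.2⟩, ?_, rfl⟩
    show φ ⟨b.1, b.2⟩ ∈ 𝔪
    have : φ ⟨b.1, b.2⟩ = b := Subtype.ext rfl
    rw [this]
    exact hb
  refine ⟨V, hBV, fun b => ⟨hfwd b, fun hb => ?_⟩⟩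
  by_contra hbm
  obtain ⟨c, i, hi, hc⟩ := h𝔪.exists_inv hbm
  -- `1 - c * b ∈ 𝔪`
  have h1 : ((1 - c * b : B) : K) ∈ V.nonunits := by
    apply hfwd
    have : 1 - c * b = i := by rw [← hc]; ring
    rw [this]
    exact hi
  have h2 : ((c * b : B) : K) ∈ V.nonunits := by
    rw [V.mem_nonunits_iff] at hb ⊢
    push_cast
    rw [map_mul]
    have hcV : V.valuation (c : K) ≤ 1 := (V.valuation_le_one_iff _).mpr (hBV c)
    calc V.valuation (c : K) * V.valuation (b : K) ≤ 1 * V.valuation (b : K) := by gcongr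
      _ = V.valuation (b : K) := one_mul _
      _ < 1 := hb
  rw [V.mem_nonunits_iff] at h1 h2
  have h3 : V.valuation (1 : K) < 1 := by
    have e : (1 : K) = ((1 - c * b : B) : K) + ((c * b : B) : K) := by
      push_cast
      ring
    rw [e]
    exact lt_of_le_of_lt (V.valuation.map_add _ _) (max_lt h1 h2)
  rw [map_one] at h3
  exact lt_irrefl _ h3

end Dominate

end Fermat.Agent.S36.Mod3.H276
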