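import Fermat.Agent.S36.Mod3.H276.CuspChart
import Fermat.Agent.S36.Mod3.SpecVT
import Fermat.Agent.S36.H876.LiteSelf

/-!
# S36 / MOD3, leaf `LeafRegM`, field `regular_i`: reduction to ONE congruence (helper276)

`regular_i` (local principality of the middle component `V₂` at its cusps, chart
`Bi = chart R {x⁻¹}`, `x = x3E = j j_q j_{q²}`) is reduced to the single analytic input

  `CuspCong` :  `tcusp ^ N · g₂ ≡ w ^ k · g₁`  modulo `w ^ k · 𝔪_{V₂}`

for SOME `g₁, g₂ ∈ Bi`, `N ≥ 1`, `k`, with `g₁ = h ^ n`, `h = 1 + j⁻¹ c`, `c ∈ Bi`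
(in the application `k = 12`, `N = 12 (q - 1)`, `h = 1 - 1728 / j`, `n = 6 (q - 1)`,
`g₂ = unit · (H(j) / j ^ (q - 1)) ^ 2`, `H` the Hasse polynomial).

* `CuspCong`, `LeafCuspCong`              : the congruence, generic / at the concrete objects;
* `regular_i_of_cuspCong`                 : `PartVal`, `PartSheet`, `PartQep`, `cusp_single`,
                                            `pi_unif`, `CuspCong` ⟹ the field `regular_i`;
* `leafRegI_of`                           : `LeafVal → LeafSheet → LeafQep → LeafInc → LeafVT →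
                                            LeafCuspCong → LeafRegI` (`LeafRegI` = `regular_i`
                                            VERBATIM);
* `leafRegM_of`                           : `LeafRegMF` (`regular_m` VERBATIM) + `LeafRegI`
                                            ⟹ `Mod3.LeafRegM`;
* `revPoly_mem_chart`                     : `H(y) / y ^ n ∈ chart R S` for `deg H ≤ n`,
                                            `y⁻¹ ∈ chart R S`.

Abstract engine: `S36.H876.principalAt_lite` (`Qep3` only).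
-/

set_option autoImplicit false
set_option linter.style.haveILetI false
set_option linter.unusedSectionVars false
set_option synthInstance.maxHeartbeats 400000
set_option maxHeartbeats 1600000

noncomputable section

namespace Fermat.Agent.S36.Mod3.H276

open ModularCurve Polynomial
open Fermat.Agent.S18.H138 (chart mem_chart mem_chart_of_mem)
open Fermat.Agent Fermat.Agent.S36.Eng

/-! ## Generic -/

section Generic

variable {R : Type*} [CommRing R] {F : Type*} [Field F] [Algebra R F]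

/-- A valuation ring containing `R` and `y` contains the chart `chart R {y}`. -/
theorem chart_le_h276 (V : ValuationSubring F) {y : F}
    (hR : ∀ r : R, algebraMap R F r ∈ V) (hy : y ∈ V) :
    ∀ b : chart R ({y} : Set F), (b : F) ∈ V := by
  intro b
  have hle : ∀ a ∈ Algebra.adjoin R ({y} : Set F), a ∈ V := by
    intro a ha
    induction ha using Algebra.adjoin_induction with
    | mem z hz =>
      rw [Set.mem_singleton_iff] at hz
      rw [hz]
      exact hy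
    | algebraMap r => exact hR r
    | add z z' _ _ hz hz' => exact V.add_mem _ _ hz hz'
    | mul z z' _ _ hz hz' => exact V.mul_mem _ _ hz hz'
  have hint : IsIntegral (Algebra.adjoin R ({y} : Set F)) (b : F) := mem_chart.1 b.2
  have hint' : IsIntegral V (b : F) := by
    obtain ⟨p, hpm, hp0⟩ := hint
    let φ : Algebra.adjoin R ({y} : Set F) →+* V :=
      { toFun := fun a => ⟨(a : F), hle a a.2⟩
        map_one' := rfl
        map_mul' := fun _ _ => rfl
        map_zero' := rfl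
        map_add' := fun _ _ => rfl }
    refine ⟨p.map φ, hpm.map φ, ?_⟩
    rw [Polynomial.eval₂_map]
    exact hp0
  obtain ⟨z, hz⟩ := IsIntegrallyClosed.isIntegral_iff (R := V) (K := F) |>.mp hint'
  rw [← hz]
  exact z.2

/-- `w ∈ 𝔪_{V₂}` from `ram₂` (`2 ≤ q`). -/
theorem w_mem_nonunits_of_ram {V : ValuationSubring F} {a : F} {q : ℕ} (hq : 2 ≤ q)
    (h : ∃ t : F, UnifAt V t ∧ UnitAt V (a * (t ^ (q - 1))⁻¹)) : a ∈ V.nonunits := by
  obtain ⟨t, ⟨t0, t1, -⟩, ⟨-, u1, -⟩⟩ := h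
  have e : a = a * (t ^ (q - 1))⁻¹ * t ^ (q - 1) := by
    have : t ^ (q - 1) ≠ 0 := pow_ne_zero _ t0
    field_simp
  rw [e, V.mem_nonunits_iff, map_mul, map_pow]
  rw [V.mem_nonunits_iff] at t1
  have h1 : V.valuation (a * (t ^ (q - 1))⁻¹) ≤ 1 := (V.valuation_le_one_iff _).mpr u1
  have h2 : V.valuation t ^ (q - 1) < 1 := pow_lt_one₀ zero_le t1 (by omega)
  calc V.valuation (a * (t ^ (q - 1))⁻¹) * V.valuation t ^ (q - 1)
      ≤ 1 * V.valuation t ^ (q - 1) := by gcongr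
    _ = V.valuation t ^ (q - 1) := one_mul _
    _ < 1 := h2

/-- `H(y) / y ^ n = H^rev(y⁻¹)` when `deg H ≤ n`. -/
theorem revPoly_eq (H : Polynomial R) {n : ℕ} (hn : H.natDegree ≤ n) {y : F} (hy : y ≠ 0) :
    Polynomial.aeval y H * (y⁻¹) ^ n = Polynomial.aeval y⁻¹ (H.reflect n) := by
  letI := invertibleOfNonzero hy
  have h := Polynomial.eval₂_reflect_mul_pow (algebraMap R F) y n H hn
  rw [invOf_eq_inv] at h
  rw [Polynomial.aeval_def, Polynomial.aeval_def, ← h, mul_assoc, ← mul_pow,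
    mul_inv_cancel₀ hy, one_pow, mul_one]

/-- `H(y) / y ^ n` lies in the chart of `y⁻¹` when `deg H ≤ n`. -/
theorem revPoly_mem_chart (H : Polynomial R) {n : ℕ} (hn : H.natDegree ≤ n) {y : F}
    (hy : y ≠ 0) {S : Set F} (hyS : y⁻¹ ∈ chart R S) :
    Polynomial.aeval y H * (y⁻¹) ^ n ∈ chart R S := by
  rw [revPoly_eq H hn hy]
  have h2 : ((Polynomial.aeval (⟨y⁻¹, hyS⟩ : chart R S) (H.reflect n) : chart R S) : F)
      = Polynomial.aeval y⁻¹ (H.reflect n) := by
    simp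
  rw [← h2]
  exact (Polynomial.aeval (⟨y⁻¹, hyS⟩ : chart R S) (H.reflect n)).2

end Generic

/-! ## The congruence -/

section Cong

variable (P : ValuationSubring A2.Qb) (E : IntermediateField ℚ A2.Qb) (M q : ℕ)
  [NeZero M] [NeZero q] [NeZero (M * q)]

/-- **The cusp congruence**: the only analytic input of `regular_i`. -/
def CuspCong (w : A2.RE P E) (V₂ : ValuationSubring (A2.Mod.FE E (M * q * q))) : Prop :=
  ∃ (h c g₂ : chart (A2.RE P E) ({(x3E E M q)⁻¹} : Set (A2.Mod.FE E (M * q * q))))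
    (n k N : ℕ), 0 < N ∧
    (h : A2.Mod.FE E (M * q * q)) = 1 + (j1 E M q)⁻¹ * c ∧
    (tcusp E M q ^ N * (g₂ : A2.Mod.FE E (M * q * q))
        - algebraMap (A2.RE P E) (A2.Mod.FE E (M * q * q)) w ^ k
          * (h : A2.Mod.FE E (M * q * q)) ^ n)
      * (algebraMap (A2.RE P E) (A2.Mod.FE E (M * q * q)) w ^ k)⁻¹ ∈ V₂.nonunits

/-- **`regular_i` from the cusp congruence.** -/
theorem regular_i_of_cuspCong (hq : q.Prime) (w : A2.RE P E)
    (V₁ V₂ V₃ : ValuationSubring (A2.Mod.FE E (M * q * q)))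
    (hval : PartVal (R := A2.RE P E) w q (x3E E M q) V₁ V₂ V₃)
    (hsheet : PartSheet (R := A2.RE P E) w (x3E E M q) V₁ V₂ V₃)
    (hqep : PartQep (R := A2.RE P E) w (x3E E M q) V₁ V₂ V₃)
    (hinc : PartInc (R := A2.RE P E) w (x3E E M q) V₁ V₂ V₃)
    (hπ : UnifAt V₂ (jqq E M q - j1 E M q))
    (hcong : CuspCong P E M q w V₂) :
    ∀ 𝔪 : Ideal (chart (A2.RE P E) ({(x3E E M q)⁻¹} : Set (A2.Mod.FE E (M * q * q)))),
      𝔪.IsMaximal →
      (⟨(x3E E M q)⁻¹, mem_chart_of_mem rfl⟩ :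
        chart (A2.RE P E) ({(x3E E M q)⁻¹} : Set (A2.Mod.FE E (M * q * q)))) ∈ 𝔪 →
      Through _ 𝔪 V₂ → PrincipalAt _ 𝔪 V₂ := by
  intro 𝔪 h𝔪 hx hthr
  obtain ⟨h, c, g₂, n, k, N, hN, hh, hc⟩ := hcong
  -- the chart lies in the three valuation rings
  have hB₁ := chart_le_h276 (R := A2.RE P E) V₁ hsheet.base₁ hval.x_unit₁.2.2
  have hB₂ := chart_le_h276 (R := A2.RE P E) V₂ hsheet.base₂ hval.x_unit₂.2.2
  have hB₃ := chart_le_h276 (R := A2.RE P E) V₃ hsheet.base₃ hval.x_unit₃.2.2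
  -- `w ∈ 𝔪`
  have hw𝔪 : algebraMap (A2.RE P E)
      (chart (A2.RE P E) ({(x3E E M q)⁻¹} : Set (A2.Mod.FE E (M * q * q)))) w ∈ 𝔪 :=
    hthr _ (w_mem_nonunits_of_ram hq.two_le hval.ram₂)
  -- the cusp lies on the middle component only
  obtain ⟨h12, -, h23⟩ := hinc.cusp_single 𝔪 h𝔪 hw𝔪 hx
  have hn₁ : ¬ Through _ 𝔪 V₁ := fun h1 => h12 ⟨h1, hthr⟩
  have hn₃ : ¬ Through _ 𝔪 V₃ := fun h3 => h23 ⟨hthr, h3⟩
  -- `g₁ = h ^ n ∉ 𝔪`
  have hh𝔪 : h ∉ 𝔪 := one_add_not_mem_of_cusp P E M q hq 𝔪 h𝔪 hx h c hh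
  have hg₁ : h ^ n ∉ 𝔪 := fun hmem => hh𝔪 (h𝔪.isPrime.mem_of_pow_mem n hmem)
  -- the uniformiser
  have hun := tcusp_unifAt E M q hq V₂ hval.x_unit₂ hπ
  exact H876.principalAt_lite w _ V₁ V₂ V₃ hB₁ hB₂ hB₃ hqep.qep_i hval.unif₁ hval.unif₃ 𝔪
    h𝔪.isPrime hthr hn₁ hn₃ ⟨tcusp E M q, tcusp_mem_chart P E M q hq⟩ (h ^ n) g₂ k N hN hun hg₁
    (by simpa using hc)

end Cong

/-! ## The leaves -/

section Leaves

/-- The cusp congruence at the concrete objects. -/
def LeafCuspCong : Prop :=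
  Leaf fun P E M q _ _ _ w _ _ _ V₂ _ => CuspCong P E M q w V₂

/-- The field `regular_i` of `PartRegM` / `PartReg` at the concrete objects, VERBATIM. -/
def LeafRegI : Prop :=
  Leaf fun P E M q _ _ _ _ _ _ _ V₂ _ =>
    ∀ 𝔪 : Ideal (chart (A2.RE P E) ({(x3E E M q)⁻¹} : Set (A2.Mod.FE E (M * q * q)))),
      𝔪.IsMaximal →
      (⟨(x3E E M q)⁻¹, Fermat.Agent.S18.H138.mem_chart_of_mem rfl⟩ :
        chart (A2.RE P E) ({(x3E E M q)⁻¹} : Set (A2.Mod.FE E (M * q * q)))) ∈ 𝔪 →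
      Through _ 𝔪 V₂ → PrincipalAt _ 𝔪 V₂

/-- The field `regular_m` of `PartRegM` at the concrete objects, VERBATIM. -/
def LeafRegMF : Prop :=
  Leaf fun P E M q _ _ _ _ _ _ V₁ V₂ V₃ =>
    ∀ 𝔪 : Ideal (chart (A2.RE P E) ({x3E E M q} : Set (A2.Mod.FE E (M * q * q)))),
      𝔪.IsMaximal → Through _ 𝔪 V₂ →
      ¬ Through _ 𝔪 V₁ → ¬ Through _ 𝔪 V₃ → PrincipalAt _ 𝔪 V₂

/-- **`regular_i`** from the leaves VAL, SHEET, QEP, INC, VT and the cusp congruence. -/
theorem leafRegI_of (hVal : LeafVal) (hSheet : LeafSheet) (hQep : LeafQep) (hInc : LeafInc)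
    (hVT : LeafVT) (hC : LeafCuspCong) : LeafRegI := by
  intro P E M q _ _ _ w hstd V₁' V₂' V₁ V₂ V₃ W' W hobj
  exact regular_i_of_cuspCong P E M q hstd.q_prime w V₁ V₂ V₃
    (hVal P E M q w hstd V₁' V₂' V₁ V₂ V₃ W' W hobj)
    (hSheet P E M q w hstd V₁' V₂' V₁ V₂ V₃ W' W hobj)
    (hQep P E M q w hstd V₁' V₂' V₁ V₂ V₃ W' W hobj)
    (hInc P E M q w hstd V₁' V₂' V₁ V₂ V₃ W' W hobj)
    (hVT P E M q w hstd V₁' V₂' V₁ V₂ V₃ W' W hobj).pi_unif
    (hC P E M q w hstd V₁' V₂' V₁ V₂ V₃ W' W hobj)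

/-- **`Mod3.LeafRegM`** from its two fields. -/
theorem leafRegM_of (hM : LeafRegMF) (hI : LeafRegI) : LeafRegM := by
  intro P E M q _ _ _ w hstd V₁' V₂' V₁ V₂ V₃ W' W hobj
  exact
    { regular_m := hM P E M q w hstd V₁' V₂' V₁ V₂ V₃ W' W hobj
      regular_i := hI P E M q w hstd V₁' V₂' V₁ V₂ V₃ W' W hobj }

end Leaves

end Fermat.Agent.S36.Mod3.H276

end
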